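/-
MAZ (S15), chapter WEIL (helper79): **Hecke operators away from `p r` are self-adjoint for the Weil
pairing, for free, from the Eichler-Shimura relation and the Galois equivariance of the pairing.**
Mathlib only.

If `e` is a pairing on `M` with `e (φ x) (φ y) = ℓ • e x y` (`φ` a Frobenius element at `ℓ`, which
multiplies the Weil pairing by `ℓ`), `φ` is surjective, and `T ∘ φ = φ ∘ φ + ℓ` (Eichler-Shimura:
`φ² - T_ℓ φ + ℓ = 0`), then `e (T x) y = e x (T y)`.  No adjunction formula for degeneracy maps and
no Atkin-Lehner symmetry is needed.  Consequences: every element of a ring generated by such `T` is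
self-adjoint, primary parts for ideals of that ring are orthogonal to their complements, and the
pairing stays non-degenerate on them.
-/
import Mathlib

set_option autoImplicit false

namespace Fermat.Agent.MAZ.Weil.ESAdjoint79

variable {M Z : Type*} [AddCommGroup M] [AddCommGroup Z]

/-- **Eichler-Shimura gives self-adjointness.** -/
theorem adjoint_of_eichlerShimura (e : M →+ M →+ Z) (φ T : M →+ M) (ℓ : ℕ)
    (hφ : Function.Surjective φ) (he : ∀ x y, e (φ x) (φ y) = ℓ • e x y)
    (hES : ∀ z, T (φ z) = φ (φ z) + ℓ • z) (x y : M) : e (T x) y = e x (T y) := by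
  obtain ⟨a, rfl⟩ := hφ x
  obtain ⟨b, rfl⟩ := hφ y
  rw [hES a, hES b, map_add, map_add, AddMonoidHom.add_apply, he, he, map_nsmul, map_nsmul,
    AddMonoidHom.nsmul_apply, add_comm]

/-- The same in relation form `φ (φ z) - T (φ z) + ℓ • z = 0`. -/
theorem adjoint_of_eichlerShimura' (e : M →+ M →+ Z) (φ T : M →+ M) (ℓ : ℕ)
    (hφ : Function.Surjective φ) (he : ∀ x y, e (φ x) (φ y) = ℓ • e x y)
    (hES : ∀ z, φ (φ z) - T (φ z) + ℓ • z = 0) (x y : M) : e (T x) y = e x (T y) := by
  refine adjoint_of_eichlerShimura e φ T ℓ hφ he (fun z => ?_) x y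
  have h := hES z
  rw [sub_add_eq_add_sub, sub_eq_zero] at h
  exact h.symm

/-- The self-adjoint endomorphisms form a subring of `End M` when restricted to a commutative
family: here simply the closure properties. -/
theorem adjoint_add (e : M →+ M →+ Z) {S T : M →+ M} (hS : ∀ x y, e (S x) y = e x (S y))
    (hT : ∀ x y, e (T x) y = e x (T y)) (x y : M) : e ((S + T) x) y = e x ((S + T) y) := by
  rw [AddMonoidHom.add_apply, AddMonoidHom.add_apply, map_add, map_add, AddMonoidHom.add_apply,
    hS, hT]

theorem adjoint_comp (e : M →+ M →+ Z) {S T : M →+ M} (hS : ∀ x y, e (S x) y = e x (S y))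
    (hT : ∀ x y, e (T x) y = e x (T y)) (hST : ∀ z, S (T z) = T (S z)) (x y : M) :
    e (S (T x)) y = e x (S (T y)) := by
  rw [hS, hT, hST]

/-- Self-adjointness passes to the subalgebra generated by a commuting family of self-adjoint
endomorphisms. -/
theorem adjoint_of_mem_adjoin (e : M →+ M →+ Z) (s : Set (Module.End ℤ M))
    (hs : ∀ t ∈ s, ∀ x y, e (t x) y = e x (t y))
    (hcomm : ∀ t ∈ s, ∀ t' ∈ s, t * t' = t' * t) :
    ∀ t ∈ Algebra.adjoin ℤ s, ∀ x y, e (t x) y = e x (t y) := by
  intro t ht
  induction ht using Algebra.adjoin_induction with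
  | mem t ht => exact hs t ht
  | algebraMap n =>
    intro x y
    rw [Module.algebraMap_end_apply, Module.algebraMap_end_apply, map_zsmul, map_zsmul,
      AddMonoidHom.zsmul_apply]
  | add a b _ _ ha hb =>
    intro x y
    rw [LinearMap.add_apply, LinearMap.add_apply, map_add, map_add, AddMonoidHom.add_apply, ha, hb]
  | mul a b ha' hb' ha hb =>
    intro x y
    have hab : a * b = b * a := by
      have hc := Algebra.isMulCommutative_adjoin ℤ hcomm
      exact congrArg Subtype.val
        (hc.is_comm.comm (⟨a, ha'⟩ : Algebra.adjoin ℤ s) (⟨b, hb'⟩ : Algebra.adjoin ℤ s))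
    rw [Module.End.mul_apply, ha, hb, ← Module.End.mul_apply, ← hab]

end Fermat.Agent.MAZ.Weil.ESAdjoint79
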