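/-
Program MAZ, G-side, line 6 (WEIL), brick (W1) (helper38): EVALUATION OF FUNCTIONS AT DIVISORS.

`evalDiv f D = ∏_P f(P) ^ D(P)` for a function `f` and a divisor `D` of a function field `F / K`
(Prelude `Place`/`Divisor` vocabulary), on top of the single-place calculus `Defs7.evalAt` /
`EvalLead49` (helper49).

* `evalDiv`, `UnitOn f D` (`f ≠ 0` and `f` is a unit at every place of the support of `D`);
* calculus: `evalDiv_zero`, `evalDiv_single`, `evalDiv_add`, `evalDiv_neg`, `evalDiv_sub`,
  `evalDiv_nsmul`, `evalDiv_zsmul`, `evalDiv_ne_zero`, `evalDiv_one`, `evalDiv_mul`, `evalDiv_inv`,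
  `evalDiv_div`, `evalDiv_pow`, `evalDiv_algebraMap` (constants: `c ^ (∑ D P)`);
* `evalDiv_smul_aut` : equivariance for semilinear automorphisms (brick (W4) at divisor level);
* `evalDiv_algebraMap_up` : `(f|F')(E') = f(restriction of E')` for an extension `F ⊆ F'`;
* `evalDiv_norm` : `(N_{F'/F} g)(D) = g(π^* D)` (functional form of `ValueFormula18.norm_value`);
* `exists_move` : the moving lemma (from `WeakApprox25.exists_ord_eq`).
-/
import Mathlib
import Fermat.Agent.MW.FF.EvalLead49
import Fermat.Agent.ES.HECKE.WeakApprox25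
import Fermat.Agent.ES.HECKE.ValueFormula18

set_option autoImplicit false
set_option linter.unusedSectionVars false
set_option linter.style.haveILetI false

open AlgebraicCurve

noncomputable section

namespace Fermat.Agent.MAZ.Weil.EvalDiv38

open Fermat.Agent.MW.Spec.Defs7 Fermat.Agent.MW.FF.EvalLead49 Fermat.Agent.X0

variable {K F : Type*} [Field K] [Field F] [Algebra K F]

/-- `f(D) = ∏_P f(P) ^ D(P)`. -/
def evalDiv (f : F) (D : Divisor K F) : K := D.prod fun P n => evalAt P f ^ n

/-- `f` is nonzero and a unit at every place of the support of `D`. -/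
def UnitOn (f : F) (D : Divisor K F) : Prop := f ≠ 0 ∧ ∀ P ∈ D.support, P.ord f = 0

theorem evalDiv_def (f : F) (D : Divisor K F) :
    evalDiv f D = D.prod fun P n => evalAt P f ^ n := rfl

theorem evalDiv_eq_prod_of_subset (f : F) (D : Divisor K F) {S : Finset (Place K F)}
    (hS : D.support ⊆ S) : evalDiv f D = ∏ P ∈ S, evalAt P f ^ D P :=
  Finsupp.prod_of_support_subset D hS _ fun _ _ => zpow_zero _

@[simp] theorem evalDiv_zero (f : F) : evalDiv f (0 : Divisor K F) = 1 :=
  Finsupp.prod_zero_index

@[simp] theorem evalDiv_single (f : F) (P : Place K F) (n : ℤ) :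
    evalDiv f (Finsupp.single P n) = evalAt P f ^ n :=
  Finsupp.prod_single_index (zpow_zero _)

/-! ### `UnitOn` -/

theorem UnitOn.ne_zero {f : F} {D : Divisor K F} (h : UnitOn f D) : f ≠ 0 := h.1

theorem UnitOn.ord_eq_zero {f : F} {D : Divisor K F} (h : UnitOn f D) {P : Place K F}
    (hP : P ∈ D.support) : P.ord f = 0 := h.2 P hP

theorem unitOn_zero {f : F} (hf : f ≠ 0) : UnitOn f (0 : Divisor K F) :=
  ⟨hf, fun P hP => by simp at hP⟩

theorem UnitOn.mono {f : F} {D E : Divisor K F} (h : UnitOn f D) (hE : E.support ⊆ D.support) :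
    UnitOn f E := ⟨h.1, fun P hP => h.2 P (hE hP)⟩

theorem UnitOn.add {f : F} {D E : Divisor K F} (h : UnitOn f D) (h' : UnitOn f E) :
    UnitOn f (D + E) := by
  classical
  refine ⟨h.1, fun P hP => ?_⟩
  rcases Finset.mem_union.mp (Finsupp.support_add hP) with hP | hP
  · exact h.2 P hP
  · exact h'.2 P hP

theorem UnitOn.neg {f : F} {D : Divisor K F} (h : UnitOn f D) : UnitOn f (-D) :=
  ⟨h.1, fun P hP => h.2 P (by rwa [Finsupp.support_neg] at hP)⟩

theorem UnitOn.sub {f : F} {D E : Divisor K F} (h : UnitOn f D) (h' : UnitOn f E) :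
    UnitOn f (D - E) := by
  rw [sub_eq_add_neg]; exact h.add h'.neg

theorem UnitOn.zsmul {f : F} {D : Divisor K F} (h : UnitOn f D) (n : ℤ) : UnitOn f (n • D) :=
  ⟨h.1, fun P hP => h.2 P (Finsupp.support_smul hP)⟩

theorem UnitOn.nsmul {f : F} {D : Divisor K F} (h : UnitOn f D) (n : ℕ) : UnitOn f (n • D) :=
  ⟨h.1, fun P hP => h.2 P (Finsupp.support_smul hP)⟩

theorem UnitOn.mul {f g : F} {D : Divisor K F} (h : UnitOn f D) (h' : UnitOn g D) :
    UnitOn (f * g) D :=
  ⟨mul_ne_zero h.1 h'.1, fun P hP => by rw [P.ord_mul h.1 h'.1, h.2 P hP, h'.2 P hP, add_zero]⟩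

theorem UnitOn.inv {f : F} {D : Divisor K F} (h : UnitOn f D) : UnitOn f⁻¹ D :=
  ⟨inv_ne_zero h.1, fun P hP => by rw [P.ord_inv, h.2 P hP, neg_zero]⟩

theorem UnitOn.div {f g : F} {D : Divisor K F} (h : UnitOn f D) (h' : UnitOn g D) :
    UnitOn (f / g) D := by
  rw [div_eq_mul_inv]; exact h.mul h'.inv

theorem UnitOn.pow {f : F} {D : Divisor K F} (h : UnitOn f D) (n : ℕ) : UnitOn (f ^ n) D := by
  induction n with
  | zero => exact ⟨by simp, fun P _ => by simp⟩
  | succ n ih => rw [pow_succ]; exact ih.mul h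

theorem unitOn_one (D : Divisor K F) : UnitOn (1 : F) D :=
  ⟨one_ne_zero, fun P _ => P.ord_one⟩

theorem unitOn_algebraMap {c : K} (hc : c ≠ 0) (D : Divisor K F) :
    UnitOn (algebraMap K F c) D :=
  ⟨fun h => hc ((map_eq_zero (algebraMap K F)).mp h), fun P _ => FF.ord_algebraMap P c⟩

theorem unitOn_single {f : F} {P : Place K F} {n : ℤ} (hf : f ≠ 0) (hP : P.ord f = 0) :
    UnitOn f (Finsupp.single P n) := by
  classical
  refine ⟨hf, fun Q hQ => ?_⟩
  have := Finsupp.support_single_subset hQ
  rw [Finset.mem_singleton] at this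
  rw [this]; exact hP

/-- the two divisors have disjoint supports -/
theorem unitOn_of_disjoint {f : F} (hf : f ≠ 0) {Df D : Divisor K F}
    (hDf : ∀ P, Df P = P.ord f) (hdisj : Disjoint Df.support D.support) : UnitOn f D := by
  refine ⟨hf, fun P hP => ?_⟩
  rw [← hDf P]
  by_contra h
  exact (Finset.disjoint_left.mp hdisj (Finsupp.mem_support_iff.mpr h)) hP

/-! ### Calculus in the divisor variable -/

section ResK

variable (hres : ∀ P : Place K F, HasResK P)

include hres

theorem evalAt_ne_zero_of_unitOn {f : F} {D : Divisor K F} (h : UnitOn f D) {P : Place K F}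
    (hP : P ∈ D.support) : evalAt P f ≠ 0 :=
  evalAt_ne_zero_of_ord_eq_zero (hres P) h.1 (h.2 P hP)

theorem evalDiv_ne_zero {f : F} {D : Divisor K F} (h : UnitOn f D) : evalDiv f D ≠ 0 := by
  rw [evalDiv_def, Finsupp.prod, Finset.prod_ne_zero_iff]
  exact fun P hP => zpow_ne_zero _ (evalAt_ne_zero_of_unitOn hres h hP)

theorem evalDiv_add {f : F} {D E : Divisor K F} (h : UnitOn f D) (h' : UnitOn f E) :
    evalDiv f (D + E) = evalDiv f D * evalDiv f E := by
  classical
  refine Finsupp.prod_add_index (fun _ _ => zpow_zero _) fun P hP m n => ?_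
  refine zpow_add₀ ?_ m n
  rcases Finset.mem_union.mp hP with hP | hP
  · exact evalAt_ne_zero_of_unitOn hres h hP
  · exact evalAt_ne_zero_of_unitOn hres h' hP

theorem evalDiv_neg (f : F) (D : Divisor K F) : evalDiv f (-D) = (evalDiv f D)⁻¹ := by
  rw [evalDiv_def, Finsupp.prod_neg_index (fun _ => zpow_zero _), evalDiv_def, Finsupp.prod,
    Finsupp.prod, ← Finset.prod_inv_distrib]
  exact Finset.prod_congr rfl fun P _ => zpow_neg _ _

theorem evalDiv_sub {f : F} {D E : Divisor K F} (h : UnitOn f D) (h' : UnitOn f E) :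
    evalDiv f (D - E) = evalDiv f D / evalDiv f E := by
  rw [sub_eq_add_neg, evalDiv_add hres h h'.neg, evalDiv_neg hres, div_eq_mul_inv]

theorem evalDiv_nsmul {f : F} {D : Divisor K F} (h : UnitOn f D) (n : ℕ) :
    evalDiv f (n • D) = evalDiv f D ^ n := by
  induction n with
  | zero => simp
  | succ n ih => rw [succ_nsmul, evalDiv_add hres (h.nsmul n) h, ih, pow_succ]

theorem evalDiv_zsmul {f : F} {D : Divisor K F} (h : UnitOn f D) (n : ℤ) :
    evalDiv f (n • D) = evalDiv f D ^ n := by
  obtain ⟨m, rfl | rfl⟩ := Int.eq_nat_or_neg n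
  · rw [natCast_zsmul, evalDiv_nsmul hres h, zpow_natCast]
  · rw [neg_smul, evalDiv_neg hres, natCast_zsmul, evalDiv_nsmul hres h, zpow_neg, zpow_natCast]

/-! ### Calculus in the function variable -/

theorem evalAt_mul_of_ord_eq_zero {f g : F} {P : Place K F} (hf : P.ord f = 0)
    (hg : P.ord g = 0) : evalAt P (f * g) = evalAt P f * evalAt P g :=
  evalAt_mul (hres P) (P.adicValuation_le_one_iff.mpr (Or.inr hf.ge))
    (P.adicValuation_le_one_iff.mpr (Or.inr hg.ge))

theorem evalDiv_mul {f g : F} {D : Divisor K F} (h : UnitOn f D) (h' : UnitOn g D) :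
    evalDiv (f * g) D = evalDiv f D * evalDiv g D := by
  rw [evalDiv_def, evalDiv_def, evalDiv_def, ← Finsupp.prod_mul]
  refine Finsupp.prod_congr fun P hP => ?_
  rw [evalAt_mul_of_ord_eq_zero hres (h.2 P hP) (h'.2 P hP), mul_zpow]

theorem evalDiv_inv {f : F} {D : Divisor K F} (h : UnitOn f D) :
    evalDiv f⁻¹ D = (evalDiv f D)⁻¹ := by
  rw [evalDiv_def, evalDiv_def, Finsupp.prod, Finsupp.prod, ← Finset.prod_inv_distrib]
  refine Finset.prod_congr rfl fun P hP => ?_
  rw [evalAt_inv (hres P) h.1 (h.2 P hP), inv_zpow]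

theorem evalDiv_div {f g : F} {D : Divisor K F} (h : UnitOn f D) (h' : UnitOn g D) :
    evalDiv (f / g) D = evalDiv f D / evalDiv g D := by
  rw [div_eq_mul_inv, evalDiv_mul hres h h'.inv, evalDiv_inv hres h', div_eq_mul_inv]

omit hres in
@[simp] theorem evalDiv_one (D : Divisor K F) : evalDiv (1 : F) D = 1 := by
  rw [evalDiv_def, Finsupp.prod]
  exact Finset.prod_eq_one fun P _ => by rw [evalAt_one, one_zpow]

theorem evalDiv_pow {f : F} {D : Divisor K F} (h : UnitOn f D) (n : ℕ) :
    evalDiv (f ^ n) D = evalDiv f D ^ n := by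
  induction n with
  | zero => simp
  | succ n ih => rw [pow_succ, evalDiv_mul hres (h.pow n) h, ih, pow_succ]

omit hres in
/-- Constants: `c(D) = c ^ (∑_P D(P))`. -/
theorem evalDiv_algebraMap {c : K} (hc : c ≠ 0) (D : Divisor K F) :
    evalDiv (algebraMap K F c) D = c ^ (D.sum fun _ n => n) := by
  classical
  rw [evalDiv_def, Finsupp.prod, Finsupp.sum]
  simp only [evalAt_algebraMap]
  induction D.support using Finset.induction_on with
  | empty => simp
  | insert P S hP ih => rw [Finset.prod_insert hP, Finset.sum_insert hP, ih, zpow_add₀ hc]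

omit hres in
/-- Constants evaluate to `1` on divisors of degree zero when all places have degree one. -/
theorem evalDiv_algebraMap_of_degree_eq_zero (hdeg : ∀ P : Place K F, P.deg = 1) {c : K}
    (hc : c ≠ 0) {D : Divisor K F} (hD : Divisor.degree D = 0) :
    evalDiv (algebraMap K F c) D = 1 := by
  rw [evalDiv_algebraMap hc]
  have : (D.sum fun _ n => n) = Divisor.degree D := by
    rw [Divisor.degree, Finsupp.liftAddHom_apply]
    refine Finsupp.sum_congr fun P _ => ?_
    simp [hdeg P]
  rw [this, hD, zpow_zero]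

end ResK

/-! ### Semilinear equivariance -/

/-- `(γ f)(γ D) = γ (f(D))` for a semilinear automorphism `γ` (no hypothesis). -/
theorem evalDiv_smul_aut (γ : SemilinearAut K F) (f : F) (D : Divisor K F) :
    evalDiv (γ • f) (γ • D) = SemilinearAut.baseAut γ (evalDiv f D) := by
  rw [evalDiv_def, SemilinearAut.divisor_smul_def,
    Finsupp.prod_mapDomain_index_inj (MulAction.injective γ), evalDiv_def, Finsupp.prod,
    Finsupp.prod, map_prod]
  refine Finset.prod_congr rfl fun P _ => ?_
  rw [evalAt_smul_aut, map_zpow₀]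

/-! ### The moving lemma -/

/-- Moving lemma: every divisor can be moved away from a finite set of places. -/
theorem exists_move (D : Divisor K F) (S : Finset (Place K F)) :
    ∃ h : F, h ≠ 0 ∧ ∀ P ∈ S, D P + P.ord h = 0 := by
  obtain ⟨h, hh, hord⟩ := Fermat.Agent.ES.HECKE.WeakApprox25.exists_ord_eq S fun P => -D P
  exact ⟨h, hh, fun P hP => by rw [hord P hP]; ring⟩

/-! ### Extensions `F ⊆ F'`: restriction and norm -/

section Extension

variable {F' : Type*} [Field F'] [Algebra K F'] [Algebra F F'] [IsScalarTower K F F']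
  [Algebra.IsIntegral F F']

/-- `f ∈ F` has the value `a` at `w` iff it has the value `a` at the restriction of `w`. -/
theorem isValAt_algebraMap_up_iff (w : Place K F') (f : F) (a : K) :
    IsValAt w (algebraMap F F' f) a ↔ IsValAt (w.restrict F) f a := by
  rw [isValAt_iff, isValAt_iff]
  have e : algebraMap F F' f - algebraMap K F' a = algebraMap F F' (f - algebraMap K F a) := by
    rw [map_sub, ← IsScalarTower.algebraMap_apply]
  have hpos : 0 < Place.ramificationIndex (F := F) w := w.ramificationIndex_pos (F := F)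
  rw [e, map_eq_zero, w.ord_restrict]
  constructor
  · rintro (h | h)
    · exact Or.inl h
    · right
      by_contra hn
      have h0 : (w.restrict F).ord (f - algebraMap K F a) ≤ 0 := not_lt.mp hn
      have : (Place.ramificationIndex (F := F) w : ℤ) * (w.restrict F).ord (f - algebraMap K F a) ≤ 0 :=
        mul_nonpos_of_nonneg_of_nonpos (by omega) h0
      omega
  · rintro (h | h)
    · exact Or.inl h
    · right
      exact mul_pos (by omega) h

/-- `(f|F')(w) = f(w|F)` (junk values agree). -/
theorem evalAt_algebraMap_up (w : Place K F') (f : F) :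
    evalAt w (algebraMap F F' f) = evalAt (w.restrict F) f := by
  by_cases h : ∃ a : K, IsValAt (w.restrict F) f a
  · obtain ⟨a, ha⟩ := h
    rw [ha.evalAt_eq, ((isValAt_algebraMap_up_iff w f a).mpr ha).evalAt_eq]
  · push Not at h
    rw [evalAt_of_forall_not h]
    exact evalAt_of_forall_not fun a ha => h a ((isValAt_algebraMap_up_iff w f a).mp ha)

theorem mapRestrict_eq_mapDomain (E' : Divisor K F') :
    Divisor.mapRestrict F E' = Finsupp.mapDomain (fun w : Place K F' => w.restrict F) E' := by
  have : Divisor.mapRestrict (K := K) (F' := F') F =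
      (Finsupp.mapDomain.addMonoidHom (fun w : Place K F' => w.restrict F) :
        Divisor K F' →+ Divisor K F) := by
    refine Finsupp.addHom_ext fun w n => ?_
    simp [Finsupp.mapDomain_single]
  rw [this]; rfl

theorem exists_of_mem_support_mapRestrict {E' : Divisor K F'} {v : Place K F}
    (hv : v ∈ (Divisor.mapRestrict F E').support) : ∃ w ∈ E'.support, w.restrict F = v := by
  classical
  rw [mapRestrict_eq_mapDomain] at hv
  have := Finsupp.mapDomain_support hv
  obtain ⟨w, hw, rfl⟩ := Finset.mem_image.mp this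
  exact ⟨w, hw, rfl⟩

theorem UnitOn.mapRestrict {f : F} {E' : Divisor K F'} (h : UnitOn (algebraMap F F' f) E') :
    UnitOn f (Divisor.mapRestrict F E') := by
  have hf : f ≠ 0 := fun h0 => h.1 (by rw [h0, map_zero])
  refine ⟨hf, fun v hv => ?_⟩
  obtain ⟨w, hw, rfl⟩ := exists_of_mem_support_mapRestrict hv
  have h0 := h.2 w hw
  rw [w.ord_restrict] at h0
  have hpos : 0 < Place.ramificationIndex (F := F) w := w.ramificationIndex_pos (F := F)
  rcases mul_eq_zero.mp h0 with h1 | h1
  · omega
  · exact h1

/-- `(f|F')(E') = f(E'|F)`: evaluating the image of `f ∈ F` at a divisor of `F'` is evaluating `f`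
at the restricted divisor. -/
theorem evalDiv_algebraMap_up (hres : ∀ P : Place K F, HasResK P) {f : F} {E' : Divisor K F'}
    (h : UnitOn (algebraMap F F' f) E') :
    evalDiv (algebraMap F F' f) E' = evalDiv f (Divisor.mapRestrict F E') := by
  classical
  induction E' using Finsupp.induction with
  | zero => simp
  | single_add w n E hw hn ih =>
    have hdisj : Disjoint (Finsupp.single w n).support E.support := by
      rw [Finsupp.support_single _ hn, Finset.disjoint_singleton_left]
      exact hw
    have hsupp := Finsupp.support_add_eq hdisj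
    have h1 : UnitOn (algebraMap F F' f) (Finsupp.single w n) :=
      h.mono (by rw [hsupp]; exact Finset.subset_union_left)
    have h2 : UnitOn (algebraMap F F' f) E :=
      h.mono (by rw [hsupp]; exact Finset.subset_union_right)
    have h1' := h1.mapRestrict
    have h2' := h2.mapRestrict
    rw [map_add, evalDiv_add hres h1' h2', ← ih h2, Divisor.mapRestrict_single, evalDiv_single,
      ← evalAt_algebraMap_up]
    -- the `F'` side
    rw [evalDiv_def, Finsupp.prod_add_index_of_disjoint hdisj, ← evalDiv_def, ← evalDiv_def,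
      evalDiv_single]

variable [HasPrincipalDivisors K F']

/-- The value of a norm at a place: `N(g)(v) = ∏_{w | v} g(w) ^ e(w|v)`. -/
theorem isValAt_norm [IsAlgClosed K] [CharZero K] [FiniteDimensional F F']
    (hres' : ∀ w : Place K F', HasResK w) (v : Place K F) (g : F')
    (hg : ∀ w ∈ v.fiber F', 0 ≤ w.ord g) :
    IsValAt v (Algebra.norm F g)
      (∏ w ∈ v.fiber F', evalAt w g ^ (Place.ramificationIndex (F := F) w)) := by
  have hres0 : ∀ w : Place K F', ∀ f ∈ w.toValuationSubring,
      ∃ c : K, f = algebraMap K F' c ∨ 0 < w.ord (f - algebraMap K F' c) := by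
    intro w f hf
    obtain ⟨a, ha⟩ := hres' w f (w.adicValuation_le_one_of_mem hf)
    refine ⟨a, ?_⟩
    rcases isValAt_iff.mp ha with h | h
    · exact Or.inl (sub_eq_zero.mp h)
    · exact Or.inr h
  have hval : ∀ w ∈ v.fiber F', g = algebraMap K F' (evalAt w g) ∨
      0 < w.ord (g - algebraMap K F' (evalAt w g)) := by
    intro w hw
    rcases isValAt_iff.mp (evalAt_spec_of_ord (hres' w) (hg w hw)) with h | h
    · exact Or.inl (sub_eq_zero.mp h)
    · exact Or.inr h
  rw [isValAt_iff]
  rcases Fermat.Agent.ES.HECKE.ValueFormula18.norm_value hres0 v g (fun w => evalAt w g) hval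
    with h | h
  · exact Or.inl (sub_eq_zero.mpr h)
  · exact Or.inr h

theorem evalAt_norm [IsAlgClosed K] [CharZero K] [FiniteDimensional F F']
    (hres' : ∀ w : Place K F', HasResK w) (v : Place K F) (g : F')
    (hg : ∀ w ∈ v.fiber F', 0 ≤ w.ord g) :
    evalAt v (Algebra.norm F g) =
      ∏ w ∈ v.fiber F', evalAt w g ^ (Place.ramificationIndex (F := F) w) :=
  (isValAt_norm hres' v g hg).evalAt_eq

/-- **Norm compatibility**: `(N_{F'/F} g)(D) = g(π^* D)`. -/
theorem evalDiv_norm [IsAlgClosed K] [CharZero K] [FiniteDimensional F F']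
    (hres' : ∀ w : Place K F', HasResK w) (g : F') (D : Divisor K F)
    (hg : UnitOn g (Divisor.pullback F' D)) :
    evalDiv (Algebra.norm F g) D = evalDiv g (Divisor.pullback F' D) := by
  classical
  -- places over the support of `D` lie in the support of the pull-back
  have hmem : ∀ v ∈ D.support, ∀ w ∈ v.fiber F', w ∈ (Divisor.pullback F' D).support := by
    intro v hv w hw
    rw [Finsupp.mem_support_iff, Divisor.pullback_apply, Place.mem_fiber.mp hw]
    have hpos : 0 < Place.ramificationIndex (F := F) w := w.ramificationIndex_pos (F := F)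
    exact mul_ne_zero (by omega) (Finsupp.mem_support_iff.mp hv)
  have hsub : (Divisor.pullback F' D).support ⊆ D.support.biUnion fun v => v.fiber F' := by
    intro w hw
    exact Finset.mem_biUnion.mpr
      ⟨w.restrict F, Divisor.restrict_mem_support_of_mem_support_pullback hw,
        Place.restrict_mem_fiber w⟩
  have hdisj : (D.support : Set (Place K F)).PairwiseDisjoint fun v => v.fiber F' := by
    intro v _ v' _ hne
    refine Finset.disjoint_left.mpr fun w hw hw' => hne ?_
    rw [← Place.mem_fiber.mp hw, ← Place.mem_fiber.mp hw']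
  rw [evalDiv_eq_prod_of_subset g _ hsub, Finset.prod_biUnion hdisj, evalDiv_def, Finsupp.prod]
  refine Finset.prod_congr rfl fun v hv => ?_
  rw [evalAt_norm hres' v g fun w hw => (hg.2 w (hmem v hv w hw)).ge, ← Finset.prod_zpow]
  refine Finset.prod_congr rfl fun w hw => ?_
  rw [Divisor.pullback_apply, Place.mem_fiber.mp hw, zpow_mul, zpow_natCast]

end Extension

end Fermat.Agent.MAZ.Weil.EvalDiv38
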