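/-
MAZ (S15), G-side, line 6 (DUALITY / WEIL), brick WEIL-ALG (helper22): **a perfect, antisymmetric,
Frobenius-semi-invariant pairing forces `#gen1 = sqrt #M`** (Mazur's `α = half`).

Mathlib + `Devissage95` (for `gen1`) only.

Setting: `M` a finite abelian group killed by a prime `r`, `e : M →+ M →+ ZMod r` a pairing,
`φ : M →+ M` (a Frobenius `φ₀` at a prime `ℓ₀`), `c = ℓ₀ mod r` with `c ≠ 0, 1`:
* `e (φ x) (φ y) = c * e x y` (Galois equivariance of the Weil pairing into `μ_r`);
* `((φ - 1)(φ - c))^n = 0` pointwise (Eichler–Shimura + `P`-primary);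
* `e` left non-degenerate and antisymmetric.
Then `gen1 (φ - 1)` and `gen1 (φ - c)` are complementary, each is isotropic, hence they are in perfect
duality and `#gen1 (φ - 1) ^ 2 = #M`.
-/
import Mathlib
import Fermat.Agent.MAZ.Desc.Devissage95

set_option autoImplicit false
set_option linter.style.haveILetI false
set_option linter.unusedSectionVars false
set_option linter.unusedVariables false

namespace Fermat.Agent.MAZ.Weil.WeilAlg22

open Fermat.Agent.MAZ.Desc.Devissage95

/-! ### The dual of a finite elementary abelian group -/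

section Dual

variable {r : ℕ} [Fact r.Prime]

theorem card_dual_zmod {A : Type*} [AddCommGroup A] [Module (ZMod r) A] [Finite A] :
    Nat.card (Module.Dual (ZMod r) A) = Nat.card A := by
  haveI : Module.Finite (ZMod r) A := Module.Finite.of_finite
  rw [Module.natCard_eq_pow_finrank (K := ZMod r) (V := Module.Dual (ZMod r) A),
    Module.natCard_eq_pow_finrank (K := ZMod r) (V := A), Subspace.dual_finrank_eq]

/-- A finite abelian group killed by `r` has exactly `#A` homomorphisms to `ZMod r`. -/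
theorem card_addMonoidHom_zmod {A : Type*} [AddCommGroup A] [Finite A] (hA : ∀ a : A, r • a = 0) :
    Nat.card (A →+ ZMod r) = Nat.card A := by
  letI : Module (ZMod r) A := AddCommGroup.zmodModule hA
  have e1 : (A →+ ZMod r) ≃ Module.Dual (ZMod r) A :=
    { toFun := fun f => AddMonoidHom.toZModLinearMap r f
      invFun := fun f => f.toAddMonoidHom
      left_inv := fun f => by ext; rfl
      right_inv := fun f => by ext; rfl }
  rw [Nat.card_congr e1]
  exact card_dual_zmod

end Dual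

/-! ### Isotropy of the two generalised eigenspaces -/

section Core

variable {r : ℕ} [Fact r.Prime] {M : Type*} [AddCommGroup M]

/-- If `e (φ x) (φ y) = c e x y` with `c ≠ 1`, the generalised `1`-eigenspace of `φ` is isotropic. -/
theorem pair_eq_zero_of_gen_one (e : M →+ M →+ ZMod r) (φ f1 : M →+ M) (c : ZMod r)
    (hf1 : ∀ x, f1 x = φ x - x) (hc1 : c ≠ 1) (hφ : ∀ x y, e (φ x) (φ y) = c * e x y) :
    ∀ (n a b : ℕ), a + b ≤ n → ∀ x y : M, f1^[a] x = 0 → f1^[b] y = 0 → e x y = 0 := by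
  intro n
  induction n with
  | zero =>
    intro a b hab x y hx hy
    have ha : a = 0 := by omega
    subst ha
    rw [Function.iterate_zero, id_eq] at hx
    rw [hx, map_zero, AddMonoidHom.zero_apply]
  | succ n ih =>
    intro a b hab x y hx hy
    rcases a with _ | a
    · rw [Function.iterate_zero, id_eq] at hx
      rw [hx, map_zero, AddMonoidHom.zero_apply]
    rcases b with _ | b
    · rw [Function.iterate_zero, id_eq] at hy
      rw [hy, map_zero]
    rw [Function.iterate_succ_apply] at hx hy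
    have hx1 : f1^[a + 1] x = 0 := by rw [Function.iterate_succ_apply]; exact hx
    have hy1 : f1^[b + 1] y = 0 := by rw [Function.iterate_succ_apply]; exact hy
    have h1 : e (f1 x) y = 0 := ih a (b + 1) (by omega) _ _ hx hy1
    have h2 : e x (f1 y) = 0 := ih (a + 1) b (by omega) _ _ hx1 hy
    have h3 : e (f1 x) (f1 y) = 0 := ih a b (by omega) _ _ hx hy
    have hφx : φ x = x + f1 x := by rw [hf1]; abel
    have hφy : φ y = y + f1 y := by rw [hf1]; abel
    have h := hφ x y
    have hexp : e (x + f1 x) (y + f1 y) =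
        e x y + e x (f1 y) + (e (f1 x) y + e (f1 x) (f1 y)) := by
      simp only [map_add, AddMonoidHom.add_apply]
      abel
    rw [hφx, hφy, hexp, h1, h2, h3, add_zero, add_zero, add_zero] at h
    have h' : (c - 1) * e x y = 0 := by rw [sub_mul, one_mul, ← h, sub_self]
    rcases mul_eq_zero.mp h' with h0 | h0
    · exact absurd (sub_eq_zero.mp h0) hc1
    · exact h0

/-- If `e (φ x) (φ y) = c e x y` with `c ≠ 0, 1`, the generalised `c`-eigenspace of `φ` is
isotropic. -/
theorem pair_eq_zero_of_gen_c (e : M →+ M →+ ZMod r) (φ fc : M →+ M) (c : ℕ)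
    (hfc : ∀ x, fc x = φ x - c • x) (hc0 : (c : ZMod r) ≠ 0) (hc1 : (c : ZMod r) ≠ 1)
    (hφ : ∀ x y, e (φ x) (φ y) = (c : ZMod r) * e x y) :
    ∀ (n a b : ℕ), a + b ≤ n → ∀ x y : M, fc^[a] x = 0 → fc^[b] y = 0 → e x y = 0 := by
  intro n
  induction n with
  | zero =>
    intro a b hab x y hx hy
    have ha : a = 0 := by omega
    subst ha
    rw [Function.iterate_zero, id_eq] at hx
    rw [hx, map_zero, AddMonoidHom.zero_apply]
  | succ n ih =>
    intro a b hab x y hx hy
    rcases a with _ | a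
    · rw [Function.iterate_zero, id_eq] at hx
      rw [hx, map_zero, AddMonoidHom.zero_apply]
    rcases b with _ | b
    · rw [Function.iterate_zero, id_eq] at hy
      rw [hy, map_zero]
    rw [Function.iterate_succ_apply] at hx hy
    have hx1 : fc^[a + 1] x = 0 := by rw [Function.iterate_succ_apply]; exact hx
    have hy1 : fc^[b + 1] y = 0 := by rw [Function.iterate_succ_apply]; exact hy
    have h1 : e (fc x) y = 0 := ih a (b + 1) (by omega) _ _ hx hy1
    have h2 : e x (fc y) = 0 := ih (a + 1) b (by omega) _ _ hx1 hy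
    have h3 : e (fc x) (fc y) = 0 := ih a b (by omega) _ _ hx hy
    have hφx : φ x = c • x + fc x := by rw [hfc]; abel
    have hφy : φ y = c • y + fc y := by rw [hfc]; abel
    have h := hφ x y
    have hexp : e (c • x + fc x) (c • y + fc y) =
        c • (c • e x y) + c • e x (fc y) + (c • e (fc x) y + e (fc x) (fc y)) := by
      simp only [map_add, AddMonoidHom.add_apply, map_nsmul, AddMonoidHom.nsmul_apply, smul_add]
      abel
    rw [hφx, hφy, hexp, h1, h2, h3] at h
    simp only [smul_zero, add_zero, nsmul_eq_mul] at h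
    have h' : ((c : ZMod r) * ((c : ZMod r) - 1)) * e x y = 0 := by
      have : (c : ZMod r) * ((c : ZMod r) - 1) * e x y =
          (c : ZMod r) * ((c : ZMod r) * e x y) - (c : ZMod r) * e x y := by ring
      rw [this, h, sub_self]
    rcases mul_eq_zero.mp h' with h0 | h0
    · rcases mul_eq_zero.mp h0 with h00 | h00
      · exact absurd h00 hc0
      · exact absurd (sub_eq_zero.mp h00) hc1
    · exact h0

end Core

/-! ### The main count -/

section Main

variable {r : ℕ} [Fact r.Prime] {M : Type*} [AddCommGroup M] [Finite M]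

/-- On a finite group, pointwise nilpotency is uniform. -/
theorem exists_uniform_iterate (g : M →+ M) (h : ∀ x, ∃ n : ℕ, g^[n] x = 0) :
    ∃ n : ℕ, ∀ x, g^[n] x = 0 := by
  classical
  cases nonempty_fintype M
  choose n hn using h
  exact ⟨Finset.univ.sup n, fun x =>
    iterate_eq_zero_of_le (Finset.le_sup (Finset.mem_univ x)) (hn x)⟩

/-- **WEIL-ALG.** `M` finite, killed by the prime `r`; `e : M × M → ℤ/r` a left non-degenerate
pairing with `e (φ x) (φ y) = c e x y`, `c ≢ 0, 1 mod r`; `((φ - 1)(φ - c))^n = 0` pointwise.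
Then `#gen1 (φ - 1) ^ 2 = #M`. -/
theorem card_gen1_sq (hM : ∀ x : M, r • x = 0) (e : M →+ M →+ ZMod r) (φ f1 fc : M →+ M) (c : ℕ)
    (hf1 : ∀ x, f1 x = φ x - x) (hfc : ∀ x, fc x = φ x - c • x)
    (hc0 : (c : ZMod r) ≠ 0) (hc1 : (c : ZMod r) ≠ 1)
    (hnd : ∀ x, (∀ y, e x y = 0) → x = 0)
    (hφ : ∀ x y, e (φ x) (φ y) = (c : ZMod r) * e x y)
    (hES : ∀ x, ∃ n : ℕ, (f1.comp fc)^[n] x = 0) :
    Nat.card (gen1 f1) ^ 2 = Nat.card M ∧ Nat.card (gen1 fc) = Nat.card (gen1 f1) := by
  -- `f1` and `fc` commute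
  have hcomm : Function.Commute (f1 : M → M) (fc : M → M) := by
    intro x
    rw [hf1 (fc x), hfc (f1 x), hfc x, hf1 x, map_sub, map_sub, map_nsmul, smul_sub]
    abel
  obtain ⟨n, hn⟩ := exists_uniform_iterate (f1.comp fc) hES
  have hn' : ∀ x, f1^[n] (fc^[n] x) = 0 := by
    intro x
    have h := hn x
    rw [AddMonoidHom.coe_comp, hcomm.comp_iterate] at h
    exact h
  obtain ⟨N₀, hN₀⟩ := exists_fitting f1
  obtain ⟨hg, hdec, -⟩ := hN₀ (max N₀ n) (le_max_left _ _)
  have iso1 := pair_eq_zero_of_gen_one e φ f1 (c : ZMod r) hf1 hc1 hφ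
  have isoc := pair_eq_zero_of_gen_c e φ fc c hfc hc0 hc1 hφ
  have hiso1 : ∀ x ∈ gen1 f1, ∀ y ∈ gen1 f1, e x y = 0 := by
    rintro x ⟨a, ha⟩ y ⟨b, hb⟩
    exact iso1 (a + b) a b le_rfl x y ha hb
  have hisoc : ∀ x ∈ gen1 fc, ∀ y ∈ gen1 fc, e x y = 0 := by
    rintro x ⟨a, ha⟩ y ⟨b, hb⟩
    exact isoc (a + b) a b le_rfl x y ha hb
  -- decomposition `M = gen1 f1 + gen1 fc`
  have hsum : ∀ x, ∃ u ∈ gen1 f1, ∃ v ∈ gen1 fc, x = u + v := by
    intro x
    obtain ⟨k, ρ, hk, rfl⟩ := hdec x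
    refine ⟨k, (hg k).2 hk, f1^[max N₀ n] ρ, ⟨n, ?_⟩, rfl⟩
    have h1 : fc^[n] (f1^[max N₀ n] ρ) = f1^[max N₀ n] (fc^[n] ρ) :=
      (hcomm.symm.iterate_iterate n (max N₀ n)) ρ
    rw [h1]
    have hNn : max N₀ n = (max N₀ n - n) + n := (Nat.sub_add_cancel (le_max_right _ _)).symm
    rw [hNn, Function.iterate_add_apply, hn', iterate_map_zero]
  -- an element orthogonal to both pieces is zero
  have hker : ∀ w, (∀ u ∈ gen1 f1, e w u = 0) → (∀ v ∈ gen1 fc, e w v = 0) → w = 0 := by
    intro w h1 h2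
    apply hnd
    intro y
    obtain ⟨u, hu, v, hv, rfl⟩ := hsum y
    rw [map_add, h1 u hu, h2 v hv, add_zero]
  have hdisj : ∀ w, w ∈ gen1 f1 → w ∈ gen1 fc → w = 0 := fun w h1 h2 =>
    hker w (fun u hu => hiso1 w h1 u hu) (fun v hv => hisoc w h2 v hv)
  -- `#M = #gen1 f1 * #gen1 fc`
  have hcard : Nat.card M = Nat.card (gen1 f1) * Nat.card (gen1 fc) := by
    rw [← Nat.card_prod]
    refine (Nat.card_congr (Equiv.ofBijective
      (fun p : gen1 f1 × gen1 fc => (p.1 : M) + (p.2 : M)) ⟨?_, ?_⟩)).symm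
    · rintro ⟨u, v⟩ ⟨u', v'⟩ h
      have h' : (u : M) + v = u' + v' := h
      have hw : (u : M) - u' = v' - v := by
        rw [sub_eq_sub_iff_add_eq_add]
        rw [h']
        abel
      have h0 : (u : M) - u' = 0 :=
        hdisj _ ((gen1 f1).sub_mem u.2 u'.2) (hw ▸ (gen1 fc).sub_mem v'.2 v.2)
      have h0' : (v' : M) - v = 0 := hw ▸ h0
      exact Prod.ext (Subtype.ext (sub_eq_zero.mp h0)) (Subtype.ext (sub_eq_zero.mp h0').symm)
    · intro x
      obtain ⟨u, hu, v, hv, rfl⟩ := hsum x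
      exact ⟨(⟨u, hu⟩, ⟨v, hv⟩), rfl⟩
  -- the two injections into the duals
  haveI : NeZero r := ⟨(Fact.out : r.Prime).ne_zero⟩
  haveI hfin : ∀ (A : AddSubgroup M), Finite (A →+ ZMod r) := fun A =>
    Finite.of_injective (fun f : A →+ ZMod r => (f : A → ZMod r)) DFunLike.coe_injective
  have hle1 : Nat.card (gen1 f1) ≤ Nat.card (gen1 fc) := by
    rw [← card_addMonoidHom_zmod (r := r) (A := gen1 fc) (fun a => Subtype.ext (hM a))]
    refine Nat.card_le_card_of_injective
      (fun u : gen1 f1 => (e (u : M)).comp (gen1 fc).subtype) ?_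
    intro u u' h
    apply Subtype.ext
    apply sub_eq_zero.mp
    apply hker
    · intro t ht
      rw [map_sub, AddMonoidHom.sub_apply, hiso1 u u.2 t ht, hiso1 u' u'.2 t ht, sub_zero]
    · intro v hv
      have h2 := DFunLike.congr_fun h ⟨v, hv⟩
      rw [map_sub, AddMonoidHom.sub_apply]
      exact sub_eq_zero.mpr h2
  have hle2 : Nat.card (gen1 fc) ≤ Nat.card (gen1 f1) := by
    rw [← card_addMonoidHom_zmod (r := r) (A := gen1 f1) (fun a => Subtype.ext (hM a))]
    refine Nat.card_le_card_of_injective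
      (fun v : gen1 fc => (e (v : M)).comp (gen1 f1).subtype) ?_
    intro v v' h
    apply Subtype.ext
    apply sub_eq_zero.mp
    apply hker
    · intro u hu
      have h2 := DFunLike.congr_fun h ⟨u, hu⟩
      rw [map_sub, AddMonoidHom.sub_apply]
      exact sub_eq_zero.mpr h2
    · intro t ht
      rw [map_sub, AddMonoidHom.sub_apply, hisoc v v.2 t ht, hisoc v' v'.2 t ht, sub_zero]
  have heq := le_antisymm hle1 hle2
  exact ⟨by rw [hcard, ← heq, sq], heq.symm⟩

end Main

/-! ### Restriction to a primary part -/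

section Primary

variable {r : ℕ} {M : Type*} [AddCommGroup M] {T : Type*} [CommRing T] [Module T M]

/-- A left non-degenerate pairing for which `T` is self-adjoint stays left non-degenerate on the image
`W` of a projector `ε ∈ T` (`ε M ⊆ W`, `ε = 1` on `W`); e.g. `W = primaryPart P M`,
`ε` from `PrimaryPart19.exists_isProj`. -/
theorem nondeg_of_projector (e : M →+ M →+ ZMod r)
    (hadj : ∀ (t : T) (x y : M), e (t • x) y = e x (t • y))
    (hnd : ∀ x, (∀ y, e x y = 0) → x = 0) (W : AddSubgroup M) (ε : T)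
    (hε1 : ∀ x : M, ε • x ∈ W) (hε2 : ∀ x ∈ W, ε • x = x) :
    ∀ x ∈ W, (∀ y ∈ W, e x y = 0) → x = 0 := by
  intro x hx h
  apply hnd
  intro y
  rw [← hε2 x hx, hadj]
  exact h _ (hε1 y)

/-- the restriction of a pairing to a subgroup. -/
def restrictPairing (e : M →+ M →+ ZMod r) (W : AddSubgroup M) : W →+ W →+ ZMod r :=
  (AddMonoidHom.compHom' W.subtype).comp (e.comp W.subtype)

@[simp] theorem restrictPairing_apply (e : M →+ M →+ ZMod r) (W : AddSubgroup M) (x y : W) :
    restrictPairing e W x y = e (x : M) (y : M) := rfl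

end Primary

section PrimaryCount

variable {r : ℕ} [Fact r.Prime] {M : Type*} [AddCommGroup M] [Finite M] {T : Type*} [CommRing T]
  [Module T M]

/-- **WEIL-ALG on a primary part.** `e` a left non-degenerate pairing on `M` (finite, killed by `r`)
for which `T` is self-adjoint and `e (φ x) (φ y) = c e x y`; `W` the image of a projector `ε ∈ T`
(e.g. the `P`-primary part), with endomorphisms `φW, f1 = φW - 1, fc = φW - c` of `W` induced by `φ`,
`((φW - 1)(φW - c))^n = 0` pointwise on `W`. Then `#gen1 (φW - 1) ^ 2 = #W`. -/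
theorem card_gen1_sq_of_projector (hM : ∀ x : M, r • x = 0) (e : M →+ M →+ ZMod r)
    (hadj : ∀ (t : T) (x y : M), e (t • x) y = e x (t • y))
    (hnd : ∀ x, (∀ y, e x y = 0) → x = 0) (W : AddSubgroup M) (ε : T)
    (hε1 : ∀ x : M, ε • x ∈ W) (hε2 : ∀ x ∈ W, ε • x = x) (φ : M →+ M) (c : ℕ)
    (hφ : ∀ x y, e (φ x) (φ y) = (c : ZMod r) * e x y)
    (hc0 : (c : ZMod r) ≠ 0) (hc1 : (c : ZMod r) ≠ 1)
    (φW f1 fc : W →+ W) (hφW : ∀ x : W, ((φW x : W) : M) = φ x)
    (hf1 : ∀ x, f1 x = φW x - x) (hfc : ∀ x, fc x = φW x - c • x)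
    (hES : ∀ x : W, ∃ n : ℕ, (f1.comp fc)^[n] x = 0) :
    Nat.card (gen1 f1) ^ 2 = Nat.card W ∧ Nat.card (gen1 fc) = Nat.card (gen1 f1) := by
  refine card_gen1_sq (M := W) (fun x => Subtype.ext (hM x)) (restrictPairing e W) φW f1 fc c
    hf1 hfc hc0 hc1 ?_ ?_ hES
  · intro x hx
    apply Subtype.ext
    exact nondeg_of_projector e hadj hnd W ε hε1 hε2 x x.2 fun y hy => hx ⟨y, hy⟩
  · intro x y
    rw [restrictPairing_apply, restrictPairing_apply, hφW, hφW, hφ]

end PrimaryCount

/-! ### From `k = 1` to all `k`, and the shape `hhalf` of `Devissage95` -/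

section Family

universe u

theorem le_mul_of_sq_eq_of_le_sq {a b m : ℕ} (h1 : a ^ 2 = m) (h2 : m ≤ b ^ 2) : m ≤ a * b := by
  have h3 : m ^ 2 ≤ (a * b) ^ 2 := by
    calc m ^ 2 = m * m := sq m
      _ = a ^ 2 * m := by rw [h1]
      _ ≤ a ^ 2 * b ^ 2 := Nat.mul_le_mul_left _ h2
      _ = (a * b) ^ 2 := (mul_pow a b 2).symm
  exact (Nat.pow_le_pow_iff_left (by norm_num)).mp h3

variable {Mk : ℕ → Type u} [∀ k, AddCommGroup (Mk k)] [∀ k, Finite (Mk k)]

/-- **(R1)** In a tower `0 → M₁ → M_{k+1} → M_k → 0` (e.g. `M_k = J[r^k]_P`, the surjection being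
multiplication by `r`), compatible with endomorphisms `f k`: `#gen1 (f k) = #gen1 (f 1) ^ k` and
`#M_k = #M₁ ^ k`. -/
theorem card_pow_of_tower (f : ∀ k, Mk k →+ Mk k) (h0 : Subsingleton (Mk 0))
    (i : ∀ k, Mk 1 →+ Mk (k + 1)) (π : ∀ k, Mk (k + 1) →+ Mk k)
    (hi : ∀ k, Function.Injective (i k)) (hex : ∀ k x, π k x = 0 ↔ ∃ y, i k y = x)
    (hsurj : ∀ k, Function.Surjective (π k))
    (hif : ∀ k x, i k (f 1 x) = f (k + 1) (i k x))
    (hπf : ∀ k x, π k (f (k + 1) x) = f k (π k x)) :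
    ∀ k, Nat.card (gen1 (f k)) = Nat.card (gen1 (f 1)) ^ k ∧
      Nat.card (Mk k) = Nat.card (Mk 1) ^ k := by
  intro k
  induction k with
  | zero =>
    haveI := h0
    refine ⟨?_, ?_⟩
    · rw [pow_zero]
      exact Nat.card_unique
    · rw [pow_zero]
      exact Nat.card_unique
  | succ k ih =>
    refine ⟨?_, ?_⟩
    · rw [card_gen1_of_exact (i k) (π k) (hi k) (hex k) (hsurj k) (f 1) (f (k + 1)) (f k)
        (hif k) (hπf k), ih.1, pow_succ, mul_comm]
    · rw [card_of_exact (i k) (π k) (hi k) (hex k) (hsurj k), ih.2, pow_succ, mul_comm]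

/-- **alpha-HALF for all `k` from `k = 1`**, in the shape of `Devissage95.card_H1S_le_card_H0S`'s
hypothesis `hhalf` (with `b k = #Mf_k`, `hδ` = DELTA-HALF). -/
theorem hhalf_of_tower (f : ∀ k, Mk k →+ Mk k) (h0 : Subsingleton (Mk 0))
    (i : ∀ k, Mk 1 →+ Mk (k + 1)) (π : ∀ k, Mk (k + 1) →+ Mk k)
    (hi : ∀ k, Function.Injective (i k)) (hex : ∀ k x, π k x = 0 ↔ ∃ y, i k y = x)
    (hsurj : ∀ k, Function.Surjective (π k))
    (hif : ∀ k x, i k (f 1 x) = f (k + 1) (i k x))
    (hπf : ∀ k x, π k (f (k + 1) x) = f k (π k x))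
    (hsq : Nat.card (gen1 (f 1)) ^ 2 = Nat.card (Mk 1))
    (b : ℕ → ℕ) (hδ : ∀ k, Nat.card (Mk k) ≤ b k ^ 2) :
    ∀ k, Nat.card (Mk k) ≤ Nat.card (gen1 (f k)) * b k := by
  intro k
  obtain ⟨h1, h2⟩ := card_pow_of_tower f h0 i π hi hex hsurj hif hπf k
  refine le_mul_of_sq_eq_of_le_sq ?_ (hδ k)
  rw [h1, h2, ← hsq, ← pow_mul, ← pow_mul, mul_comm]

end Family

end Fermat.Agent.MAZ.Weil.WeilAlg22
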